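/-
P-ES1 / block ES1-C, FORMS side (helper6), part 1: the Hecke operators `T_p` (`p ∤ M`) and the
diamond operators on `S_k(Γ₁(M))`, as linear maps, built on helper7's coset bookkeeping
(`Fermat.Agent.H7.DS.Coset`).

* `diamondForm γ hγ f`   : `f ∣[k] γ` for `γ ∈ Γ₀(M)`, as a cusp form on `Γ₁(M)`;
* `deltaRep M p`         : a chosen `δ ∈ Γ₀(M)` with lower right entry `≡ p (mod M)`;
* `heckeFam1 M p`        : the family `∞ ↦ δ_p · diag(p, 1)`, `j ↦ [[1, j], [0, p]]` of representatives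
                           of `Γ₁(M) \ Γ₁(M) diag(1, p) Γ₁(M)`;
* `heckeT1 M k p`        : `T_p f = ∑_x f ∣[k] heckeFam1 M p x` as a `ℂ`-linear endomorphism of
                           `CuspForm (Gamma1 M) k` (`0` unless `p` is a prime not dividing `M`);
* `heckeFam1_mul`        : the rewriting rule for `g ∈ Γ₀(M)`, with `lr g' = lr g`;
* `heckeT1_slash`        : `(T_p f) ∣ g = T_p (f ∣ g)` for `g ∈ Γ₀(M)`.
-/
import Mathlib
import Fermat.Agent.H7.DS.Nebentypus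
import Fermat.Prelude.Thm_CuspFormClass_isZeroAt_heckeT
import Fermat.Prelude.Thm_CuspFormClass_isZeroAt_heckeU

set_option autoImplicit false

noncomputable section

namespace Fermat.Agent.H6.ES1C

open Matrix.SpecialLinearGroup UpperHalfPlane CongruenceSubgroup ModularForm
open scoped MatrixGroups ModularForm Manifold OnePoint
open Fermat.Agent.H7.DS

variable {M : ℕ} {k : ℤ}

/-! ### translates by `Γ₀(M)` -/

/-- Every `SL(2, ℤ)`-translate of a cusp form on `Γ₁(M)` vanishes at infinity. -/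
theorem isZeroAtImInfty_slash_sl [NeZero M] (f : CuspForm (Gamma1 M) k) (γ : SL(2, ℤ)) :
    IsZeroAtImInfty ((⇑f : ℍ → ℂ) ∣[k] mapGL ℝ γ) := by
  have hc : IsCusp (mapGL ℝ γ • (OnePoint.infty : OnePoint ℝ)) 𝒮ℒ :=
    isCusp_SL2Z_iff'.mpr ⟨γ, rfl⟩
  have hc1 : IsCusp (mapGL ℝ γ • (OnePoint.infty : OnePoint ℝ))
      (Gamma1 M : Subgroup (GL (Fin 2) ℝ)) := by
    rw [Subgroup.IsArithmetic.isCusp_iff_isCusp_SL2Z]
    exact hc
  exact (OnePoint.isZeroAt_iff_forall_SL2Z hc).mp (f.zero_at_cusps' hc1) γ rfl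

/-- The translate of a cusp form on `Γ₁(M)` by an element of `Γ₀(M)`. -/
def diamondForm [NeZero M] (γ : SL(2, ℤ)) (hγ : γ ∈ Gamma0 M)
    (f : CuspForm (Gamma1 M) k) : CuspForm (Gamma1 M) k where
  toFun := (⇑f : ℍ → ℂ) ∣[k] mapGL ℝ γ
  slash_action_eq' := by
    rintro A ⟨g, hg, rfl⟩
    exact ((inv1_of_cuspForm f).slash hγ) g hg
  holo' := (CuspFormClass.holo f).slash k (mapGL ℝ γ)
  zero_at_cusps' := by
    intro c hc
    rw [Subgroup.IsArithmetic.isCusp_iff_isCusp_SL2Z] at hc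
    rw [OnePoint.isZeroAt_iff_forall_SL2Z hc]
    intro δ _
    show IsZeroAtImInfty (((⇑f : ℍ → ℂ) ∣[k] mapGL ℝ γ) ∣[k] mapGL ℝ δ)
    rw [← SlashAction.slash_mul, ← map_mul]
    exact isZeroAtImInfty_slash_sl f (γ * δ)

@[simp] theorem coe_diamondForm [NeZero M] (γ : SL(2, ℤ)) (hγ : γ ∈ Gamma0 M)
    (f : CuspForm (Gamma1 M) k) :
    (⇑(diamondForm γ hγ f) : ℍ → ℂ) = (⇑f : ℍ → ℂ) ∣[k] mapGL ℝ γ := rfl

/-! ### the chosen representatives -/

theorem exists_lr_eq_of_coprime (M : ℕ) {d : ℕ} (hd : Nat.Coprime d M) :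
    ∃ δ : SL(2, ℤ), δ ∈ Gamma0 M ∧ lr M δ = (d : ZMod M) := by
  have h : IsCoprime (d : ℤ) (M : ℤ) := Nat.isCoprime_iff_coprime.mpr hd
  obtain ⟨u, v, h⟩ := h
  refine ⟨mkSL u (-v) M d (by linear_combination h), Gamma0_mem.mpr ?_, ?_⟩
  · simp
  · simp [lr]

open Classical in
/-- A chosen element of `Γ₀(M)` with lower right entry `≡ d (mod M)` (`1` if there is none). -/
def deltaRep (M d : ℕ) : SL(2, ℤ) :=
  if h : ∃ δ : SL(2, ℤ), δ ∈ Gamma0 M ∧ lr M δ = (d : ZMod M) then h.choose else 1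

theorem deltaRep_mem (M d : ℕ) : deltaRep M d ∈ Gamma0 M := by
  unfold deltaRep
  split_ifs with h
  · exact h.choose_spec.1
  · exact one_mem _

theorem lr_deltaRep {M d : ℕ} (hd : Nat.Coprime d M) : lr M (deltaRep M d) = (d : ZMod M) := by
  have h := exists_lr_eq_of_coprime M hd
  unfold deltaRep
  rw [dif_pos h]
  exact h.choose_spec.2

theorem lr_deltaRep_prime {M p : ℕ} (hp : p.Prime) (hpM : ¬ p ∣ M) :
    lr M (deltaRep M p) = (p : ZMod M) :=
  lr_deltaRep ((Nat.Prime.coprime_iff_not_dvd hp).mpr hpM)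

/-- The family of representatives of `Γ₁(M) \ Γ₁(M) diag(1, p) Γ₁(M)`:
`∞ ↦ δ_p · diag(p, 1)`, `j ↦ [[1, j], [0, p]]`. -/
def heckeFam1 (M p : ℕ) : OnePoint (ZMod p) → GL (Fin 2) ℝ :=
  heckeRep1 p (deltaRep M p)

@[simp] theorem heckeFam1_infty (M p : ℕ) :
    heckeFam1 M p ∞ = mapGL ℝ (deltaRep M p) * heckeDiagMatrix p := rfl

@[simp] theorem heckeFam1_coe (M p : ℕ) (j : ZMod p) :
    heckeFam1 M p j = heckeMatrix p j.val := rfl

/-! ### the rewriting rule for `Γ₀(M)` -/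

/-- **Rewriting rule.**  For `g ∈ Γ₀(M)` and every representative `α_x` there is `g' ∈ Γ₀(M)` with
the same lower right entry as `g` and `α_x g = g' α_{g x}`. -/
theorem heckeRep1_mul_Gamma0 {p : ℕ} [Fact p.Prime] (hpM : ¬ p ∣ M) {δ : SL(2, ℤ)}
    (hδ : δ ∈ Gamma0 M) (hδp : lr M δ = (p : ZMod M)) (g : SL(2, ℤ)) (hg : g ∈ Gamma0 M)
    (x : OnePoint (ZMod p)) :
    ∃ g' : SL(2, ℤ), g' ∈ Gamma0 M ∧ lr M g' = lr M g ∧
      heckeRep1 p δ x * mapGL ℝ g = mapGL ℝ g' * heckeRep1 p δ (redMat p g • x) := by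
  have hp : p ≠ 0 := (Fact.out : p.Prime).ne_zero
  have hc : ((g 1 0 : ℤ) : ZMod M) = 0 := Gamma0_mem.mp hg
  have hpu : IsUnit ((p : ℕ) : ZMod M) := prime_unit_zmod hpM
  induction x using OnePoint.rec with
  | infty =>
    rw [OnePoint.smul_infty_eq_ite]
    by_cases hcp : ((g 1 0 : ℤ) : ZMod p) = 0
    · rw [if_pos (by simpa using hcp), heckeRep1_infty]
      obtain ⟨e, he⟩ := (ZMod.intCast_zmod_eq_zero_iff_dvd _ _).mp hcp
      have hmul := heckeDiagMatrix_mul_mapGL' hp g e he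
      set g₄ := mkSL (g 0 0) (p * g 0 1) e (g 1 1)
        (by linear_combination sl_det_eq g + (g 0 1) * he) with hg₄
      have hg₄0 : g₄ ∈ Gamma0 M := by
        rw [Gamma0_mem]
        have h1 : ((p : ℕ) : ZMod M) * ((e : ℤ) : ZMod M) = 0 := by
          have := congrArg (Int.cast : ℤ → ZMod M) he
          push_cast at this
          rw [← this, hc]
        exact (hpu.mul_right_eq_zero).mp h1
      have hg₄lr : lr M g₄ = lr M g := rfl
      refine ⟨δ * g₄ * δ⁻¹, mul_mem (mul_mem hδ hg₄0) (inv_mem hδ), ?_, ?_⟩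
      · rw [lr_mul (mul_mem hδ hg₄0), lr_mul hδ, hg₄lr, mul_comm (lr M δ), mul_assoc,
          lr_mul_inv hδ, mul_one]
      · rw [mul_assoc, hmul, map_mul, map_mul, map_inv]
        group
    · rw [if_neg (by simpa using hcp), heckeRep1_infty, heckeRep1_coe]
      set y : ZMod p := redMat p g 0 0 / redMat p g 1 0 with hy
      obtain ⟨e, he⟩ : (p : ℤ) ∣ g 1 1 - g 1 0 * y.val := by
        rw [← ZMod.intCast_zmod_eq_zero_iff_dvd]
        push_cast
        rw [ZMod.natCast_zmod_val, hy, redMat_apply_zero_zero, redMat_apply_one_zero,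
          mul_div_cancel₀ _ hcp, sub_self]
      have he' : g 1 1 = g 1 0 * y.val + p * e := by linear_combination he
      have hmul := heckeDiagMatrix_mul_mapGL hp g y.val e he'
      set g₃ := mkSL (p * g 0 0) (g 0 1 - g 0 0 * y.val) (g 1 0) e
        (by linear_combination sl_det_eq g - (g 0 0) * he') with hg₃
      have hg₃0 : g₃ ∈ Gamma0 M := Gamma0_mem.mpr hc
      refine ⟨δ * g₃, mul_mem hδ hg₃0, ?_, ?_⟩
      · rw [lr_mul hδ, hδp]
        have := congrArg (Int.cast : ℤ → ZMod M) he'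
        push_cast at this
        rw [hc, zero_mul, zero_add] at this
        rw [lr_def, lr_def]
        simpa [hg₃] using this.symm
      · rw [mul_assoc, hmul, map_mul, mul_assoc]
  | coe j =>
    rw [OnePoint.smul_some_eq_ite]
    by_cases h : redMat p g 1 0 * j + redMat p g 1 1 = 0
    · rw [if_pos h, heckeRep1_infty, heckeRep1_coe]
      rw [redMat_apply_one_zero, redMat_apply_one_one] at h
      obtain ⟨e, he⟩ : (p : ℤ) ∣ g 0 0 + j.val * g 1 0 := by
        rw [← ZMod.intCast_zmod_eq_zero_iff_dvd]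
        push_cast
        rw [ZMod.natCast_zmod_val]
        linear_combination h
      have hmul := heckeMatrix_mul_mapGL' hp g j.val e he
      set g₂ := mkSL e (g 0 1 + j.val * g 1 1) (g 1 0) (p * g 1 1)
        (by linear_combination sl_det_eq g - (g 1 1) * he) with hg₂
      have hg₂0 : g₂ ∈ Gamma0 M := Gamma0_mem.mpr hc
      have hg₂lr : lr M g₂ = (p : ZMod M) * lr M g := by
        rw [lr_def, lr_def]
        simp [hg₂]
      refine ⟨g₂ * δ⁻¹, mul_mem hg₂0 (inv_mem hδ), ?_, ?_⟩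
      · rw [lr_mul hg₂0, hg₂lr, ← hδp, mul_comm (lr M δ), mul_assoc, lr_mul_inv hδ, mul_one]
      · rw [hmul, map_mul, map_inv]
        group
    · rw [if_neg h, heckeRep1_coe, heckeRep1_coe]
      set y : ZMod p := (redMat p g 0 0 * j + redMat p g 0 1) /
        (redMat p g 1 0 * j + redMat p g 1 1) with hy
      obtain ⟨e, he⟩ : (p : ℤ) ∣ g 0 1 + j.val * g 1 1 - y.val * (g 0 0 + j.val * g 1 0) := by
        rw [← ZMod.intCast_zmod_eq_zero_iff_dvd]
        push_cast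
        rw [ZMod.natCast_zmod_val, ZMod.natCast_zmod_val,
          show ((g 0 0 : ℤ) : ZMod p) + j * ((g 1 0 : ℤ) : ZMod p)
            = redMat p g 1 0 * j + redMat p g 1 1 by
              rw [redMat_apply_one_zero, redMat_apply_one_one]; ring,
          hy, div_mul_cancel₀ _ h, redMat_apply_zero_zero, redMat_apply_zero_one]
        ring
      have he' : g 0 1 + j.val * g 1 1 = y.val * (g 0 0 + j.val * g 1 0) + p * e := by
        linear_combination he
      have hmul := heckeMatrix_mul_mapGL hp g j.val y.val e he'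
      refine ⟨_, ?_, ?_, hmul⟩
      · rw [Gamma0_mem]
        simp only [mkSL_10]
        push_cast
        rw [hc, mul_zero]
      · rw [lr_def, lr_def]
        simp only [mkSL_11]
        push_cast
        rw [hc, zero_mul, sub_zero]

/-! ### `T_p` commutes with the translates by `Γ₀(M)` -/

/-- `(T_p f) ∣ g = T_p (f ∣ g)` for `g ∈ Γ₀(M)` and `Γ₁(M)`-invariant `f`. -/
theorem dsT_slash_Gamma0 {p : ℕ} [Fact p.Prime] (hpM : ¬ p ∣ M) {δ : SL(2, ℤ)}
    (hδ : δ ∈ Gamma0 M) (hδp : lr M δ = (p : ZMod M)) {f : ℍ → ℂ} (hf : Inv1 M k f)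
    (g : SL(2, ℤ)) (hg : g ∈ Gamma0 M) :
    (dsT k p δ f) ∣[k] mapGL ℝ g = dsT k p δ (f ∣[k] mapGL ℝ g) := by
  have : NeZero p := ⟨(Fact.out : p.Prime).ne_zero⟩
  rw [dsT_eq_sum_onePoint k δ f, dsT_eq_sum_onePoint k δ, SlashAction.sum_slash]
  calc ∑ x : OnePoint (ZMod p), (f ∣[k] heckeRep1 p δ x) ∣[k] mapGL ℝ g
      = ∑ x : OnePoint (ZMod p), (f ∣[k] mapGL ℝ g) ∣[k] heckeRep1 p δ (redMat p g • x) := by
        refine Finset.sum_congr rfl fun x _ ↦ ?_
        obtain ⟨g', hg', hlr, hmul⟩ := heckeRep1_mul_Gamma0 hpM hδ hδp g hg x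
        rw [← SlashAction.slash_mul, hmul, SlashAction.slash_mul, hf.slash_eq hg' hg hlr]
    _ = ∑ x : OnePoint (ZMod p), (f ∣[k] mapGL ℝ g) ∣[k] heckeRep1 p δ x :=
        Equiv.sum_comp (MulAction.toPerm (redMat p g))
          (fun x ↦ (f ∣[k] mapGL ℝ g) ∣[k] heckeRep1 p δ x)

/-- `T_p f` does not depend on the choice of `δ`. -/
theorem dsT_congr_delta {p : ℕ} {δ δ' : SL(2, ℤ)} (hδ : δ ∈ Gamma0 M) (hδ' : δ' ∈ Gamma0 M)
    (h : lr M δ = lr M δ') {f : ℍ → ℂ} (hf : Inv1 M k f) :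
    dsT k p δ f = dsT k p δ' f := by
  rw [dsT_def, dsT_def, hf.slash_eq hδ hδ' h]

/-! ### `T_p` on cusp forms -/

theorem slash_heckeDiag_smul (p : ℕ) (c : ℂ) (F : ℍ → ℂ) :
    (c • F) ∣[k] heckeDiagMatrix p = c • (F ∣[k] heckeDiagMatrix p) := by
  have h := heckeT_smul k p c F
  rw [heckeT_eq_heckeU_add, heckeT_eq_heckeU_add, heckeU_smul, smul_add] at h
  exact add_left_cancel h

theorem dsT_add (p : ℕ) (δ : SL(2, ℤ)) (F G : ℍ → ℂ) :
    dsT k p δ (F + G) = dsT k p δ F + dsT k p δ G := by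
  rw [dsT_def, dsT_def, dsT_def, heckeU_add, SlashAction.add_slash, SlashAction.add_slash]
  abel

theorem dsT_smul (p : ℕ) (δ : SL(2, ℤ)) (c : ℂ) (F : ℍ → ℂ) :
    dsT k p δ (c • F) = c • dsT k p δ F := by
  rw [dsT_def, dsT_def, heckeU_smul, ModularForm.smul_slash, sl_sigma, smul_add]
  congr 1
  exact slash_heckeDiag_smul p c _

theorem isZeroAt_sub {c : OnePoint ℝ} {A B : ℍ → ℂ} (hA : OnePoint.IsZeroAt c A k)
    (hB : OnePoint.IsZeroAt c B k) : OnePoint.IsZeroAt c (A - B) k := by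
  intro g hg
  rw [sub_eq_add_neg, SlashAction.add_slash, SlashAction.neg_slash]
  exact (hA g hg).add (hB g hg).neg

/-- `T_p f` as a cusp form on `Γ₁(M)` (`p` prime, `p ∤ M`). -/
def heckeForm [NeZero M] (p : ℕ) (hp : p.Prime) (hpM : ¬ p ∣ M) (f : CuspForm (Gamma1 M) k) :
    CuspForm (Gamma1 M) k where
  toFun := dsT k p (deltaRep M p) ⇑f
  slash_action_eq' := by
    rintro A ⟨g, hg, rfl⟩
    have : Fact p.Prime := ⟨hp⟩
    exact dsT_inv1 k hpM (deltaRep_mem M p) (lr_deltaRep_prime hp hpM) (inv1_of_cuspForm f) g hg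
  holo' := by
    show MDiff (heckeU k p ⇑f
      + ((⇑f : ℍ → ℂ) ∣[k] mapGL ℝ (deltaRep M p)) ∣[k] heckeDiagMatrix p)
    exact (mdifferentiable_heckeU (CuspFormClass.holo f) k p).add
      (((CuspFormClass.holo f).slash k (mapGL ℝ (deltaRep M p))).slash k (heckeDiagMatrix p))
  zero_at_cusps' := by
    intro c hc
    show OnePoint.IsZeroAt c (heckeU k p ⇑f
      + ((⇑f : ℍ → ℂ) ∣[k] mapGL ℝ (deltaRep M p)) ∣[k] heckeDiagMatrix p) k
    refine (CuspFormClass.isZeroAt_heckeU f p hc).add ?_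
    have h : ((⇑f : ℍ → ℂ) ∣[k] mapGL ℝ (deltaRep M p)) ∣[k] heckeDiagMatrix p
        = heckeT k p ⇑(diamondForm (deltaRep M p) (deltaRep_mem M p) f)
          - heckeU k p ⇑(diamondForm (deltaRep M p) (deltaRep_mem M p) f) := by
      rw [heckeT_eq_heckeU_add, coe_diamondForm]
      abel
    rw [h]
    exact isZeroAt_sub (CuspFormClass.isZeroAt_heckeT _ p hc) (CuspFormClass.isZeroAt_heckeU _ p hc)

theorem coe_heckeForm [NeZero M] (p : ℕ) (hp : p.Prime) (hpM : ¬ p ∣ M)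
    (f : CuspForm (Gamma1 M) k) :
    (⇑(heckeForm p hp hpM f) : ℍ → ℂ) = dsT k p (deltaRep M p) ⇑f := rfl

open Classical in
/-- **The Hecke operator `T_p`** on `S_k(Γ₁(M))` (`0` unless `p` is a prime not dividing `M`). -/
def heckeT1 (M : ℕ) [NeZero M] (k : ℤ) (p : ℕ) :
    CuspForm (Gamma1 M) k →ₗ[ℂ] CuspForm (Gamma1 M) k :=
  if h : p.Prime ∧ ¬ p ∣ M then
    { toFun := heckeForm p h.1 h.2
      map_add' := fun f g => DFunLike.coe_injective <| by
        rw [coe_heckeForm, FunLike.coe_add, FunLike.coe_add, coe_heckeForm, coe_heckeForm,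
          dsT_add]
      map_smul' := fun c f => DFunLike.coe_injective <| by
        rw [coe_heckeForm, RingHom.id_apply, FunLike.coe_smul, FunLike.coe_smul,
          coe_heckeForm, dsT_smul] }
  else 0

theorem coe_heckeT1_dsT [NeZero M] {p : ℕ} (hp : p.Prime) (hpM : ¬ p ∣ M)
    (f : CuspForm (Gamma1 M) k) :
    (⇑(heckeT1 M k p f) : ℍ → ℂ) = dsT k p (deltaRep M p) ⇑f := by
  unfold heckeT1
  rw [dif_pos ⟨hp, hpM⟩]
  rfl

/-- `T_p f = ∑_x f ∣ α_x` over the family `heckeFam1 M p`. -/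
theorem coe_heckeT1 [NeZero M] {p : ℕ} [NeZero p] (hp : p.Prime) (hpM : ¬ p ∣ M)
    (f : CuspForm (Gamma1 M) k) :
    (⇑(heckeT1 M k p f) : ℍ → ℂ)
      = ∑ x : OnePoint (ZMod p), (⇑f : ℍ → ℂ) ∣[k] heckeFam1 M p x := by
  rw [coe_heckeT1_dsT hp hpM, dsT_eq_sum_onePoint]
  rfl

/-- `T_p f = U_p f + (f ∣ δ) ∣ diag(p, 1)` for every `δ ∈ Γ₀(M)` with lower right entry `p`. -/
theorem coe_heckeT1_of_lr [NeZero M] {p : ℕ} (hp : p.Prime) (hpM : ¬ p ∣ M)
    (f : CuspForm (Gamma1 M) k) {δ : SL(2, ℤ)} (hδ : δ ∈ Gamma0 M)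
    (hδp : lr M δ = (p : ZMod M)) :
    (⇑(heckeT1 M k p f) : ℍ → ℂ) = dsT k p δ ⇑f := by
  rw [coe_heckeT1_dsT hp hpM]
  exact dsT_congr_delta (deltaRep_mem M p) hδ ((lr_deltaRep_prime hp hpM).trans hδp.symm)
    (inv1_of_cuspForm f)

/-! ### the diamond operators -/

/-- The diamond operator `f ↦ f ∣ γ` (`γ ∈ Γ₀(M)`) as a linear map. -/
def diamondLinOf [NeZero M] (k : ℤ) (γ : SL(2, ℤ)) (hγ : γ ∈ Gamma0 M) :
    CuspForm (Gamma1 M) k →ₗ[ℂ] CuspForm (Gamma1 M) k where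
  toFun := diamondForm γ hγ
  map_add' := fun f g => DFunLike.coe_injective <| by
    rw [coe_diamondForm, FunLike.coe_add, FunLike.coe_add, coe_diamondForm, coe_diamondForm,
      SlashAction.add_slash]
  map_smul' := fun c f => DFunLike.coe_injective <| by
    rw [coe_diamondForm, RingHom.id_apply, FunLike.coe_smul, FunLike.coe_smul,
      coe_diamondForm, ModularForm.smul_slash, sl_sigma]
    rfl

/-- **The diamond operator `⟨d⟩`** on `S_k(Γ₁(M))`: `f ↦ f ∣ γ`, `γ ∈ Γ₀(M)` with lower right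
entry `≡ d`. -/
def diamondLin (M : ℕ) [NeZero M] (k : ℤ) (d : (ZMod M)ˣ) :
    CuspForm (Gamma1 M) k →ₗ[ℂ] CuspForm (Gamma1 M) k :=
  diamondLinOf k (deltaRep M (d : ZMod M).val) (deltaRep_mem M _)

theorem lr_deltaRep_unit [NeZero M] (d : (ZMod M)ˣ) :
    lr M (deltaRep M (d : ZMod M).val) = (d : ZMod M) := by
  rw [lr_deltaRep (ZMod.val_coe_unit_coprime d)]
  simp

/-- `⟨d⟩ f = f ∣ γ` for every `γ ∈ Γ₀(M)` with lower right entry `≡ d`. -/
theorem coe_diamondLin [NeZero M] (d : (ZMod M)ˣ) (f : CuspForm (Gamma1 M) k)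
    {γ : SL(2, ℤ)} (hγ : γ ∈ Gamma0 M) (hγd : lr M γ = (d : ZMod M)) :
    (⇑(diamondLin M k d f) : ℍ → ℂ) = (⇑f : ℍ → ℂ) ∣[k] mapGL ℝ γ := by
  show (⇑f : ℍ → ℂ) ∣[k] mapGL ℝ (deltaRep M (d : ZMod M).val) = _
  exact (inv1_of_cuspForm f).slash_eq (deltaRep_mem M _) hγ ((lr_deltaRep_unit d).trans hγd.symm)

/-- `T_p` commutes with the diamond operators. -/
theorem heckeT1_diamondLin [NeZero M] (p : ℕ) (d : (ZMod M)ˣ) (f : CuspForm (Gamma1 M) k) :
    heckeT1 M k p (diamondLin M k d f) = diamondLin M k d (heckeT1 M k p f) := by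
  by_cases h : p.Prime ∧ ¬ p ∣ M
  · obtain ⟨hp, hpM⟩ := h
    have : Fact p.Prime := ⟨hp⟩
    apply DFunLike.coe_injective
    rw [coe_heckeT1_dsT hp hpM,
      coe_diamondLin d f (deltaRep_mem M _) (lr_deltaRep_unit d),
      coe_diamondLin d _ (deltaRep_mem M _) (lr_deltaRep_unit d), coe_heckeT1_dsT hp hpM,
      dsT_slash_Gamma0 hpM (deltaRep_mem M p) (lr_deltaRep_prime hp hpM) (inv1_of_cuspForm f) _
        (deltaRep_mem M _)]
  · unfold heckeT1
    rw [dif_neg h]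
    simp

end Fermat.Agent.H6.ES1C

end
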