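/-
P-ES1 / block ES1-C, FORMS side (helper6), part 2: INTERFACES.

* `nebSub M ψ`      : the subspace of `S₂(Γ₁(M))` of forms with nebentypus `ψ`;
* `heckeTψ M ψ p`   : `T_p` restricted to `nebSub M ψ`;
* `heckeGens M ψ`, `heckeAlg1 M ψ` : the `ℤ`-algebra generated by the `T_p` (`p` prime, `p ∤ M`) and the
                      scalars `ψ(d)` inside `End_ℂ (nebSub M ψ)`;
* `QFormulaStatement`   (row ES1-C-HECKE1-Q)    : the `q`-expansion of `T_p f`;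
* `HeckeCommStatement`  (row ES1-C-HECKE1-COMM) : `heckeAlg1 M ψ` is commutative;
* `ThetaInStatement`    (row ES1-C-THETAIN)     : the eigen-system modulo `φ` of an `IsModEigen` form
                      is a ring homomorphism `heckeAlg1 M ψ →+* k`.
-/
import Mathlib
import Fermat.Agent.H6.ES1C.Hecke1
import Fermat.Agent.H20.DS.Interfaces

set_option autoImplicit false

noncomputable section

namespace Fermat.Agent.H6.ES1C

open Matrix.SpecialLinearGroup UpperHalfPlane CongruenceSubgroup ModularForm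
open scoped MatrixGroups ModularForm Manifold OnePoint
open Fermat.Agent.H7.DS Fermat.Agent.H20.DS

variable {M : ℕ}

/-- `HasNebentypus` in terms of `mapGL` and `lr`. -/
theorem hasNebentypus_iff {k : ℤ} (ψ : DirichletCharacter ℂ M) (f : ℍ → ℂ) :
    HasNebentypus k ψ f ↔
      ∀ γ : SL(2, ℤ), γ ∈ Gamma0 M → f ∣[k] mapGL ℝ γ = ψ (lr M γ) • f :=
  Iff.rfl

/-- The subspace of `S₂(Γ₁(M))` of forms with nebentypus `ψ`. -/
def nebSub (M : ℕ) [NeZero M] (ψ : DirichletCharacter ℂ M) :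
    Submodule ℂ (CuspForm (Gamma1 M) 2) where
  carrier := {f | HasNebentypus 2 ψ (⇑f : ℍ → ℂ)}
  add_mem' := by
    intro f g hf hg γ hγ
    have h1 := (hasNebentypus_iff ψ _).mp hf γ hγ
    have h2 := (hasNebentypus_iff ψ _).mp hg γ hγ
    show (⇑(f + g) : ℍ → ℂ) ∣[(2 : ℤ)] mapGL ℝ γ = _
    rw [FunLike.coe_add, SlashAction.add_slash, h1, h2, smul_add]
    rfl
  zero_mem' := by
    intro γ hγ
    show (⇑(0 : CuspForm (Gamma1 M) 2) : ℍ → ℂ) ∣[(2 : ℤ)] mapGL ℝ γ = _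
    rw [FunLike.coe_zero, SlashAction.zero_slash, smul_zero]
  smul_mem' := by
    intro c f hf γ hγ
    have h1 := (hasNebentypus_iff ψ _).mp hf γ hγ
    show (⇑(c • f) : ℍ → ℂ) ∣[(2 : ℤ)] mapGL ℝ γ = _
    rw [FunLike.coe_smul, ModularForm.smul_slash, sl_sigma, h1, smul_comm]
    rfl

theorem mem_nebSub [NeZero M] (ψ : DirichletCharacter ℂ M) (f : CuspForm (Gamma1 M) 2) :
    f ∈ nebSub M ψ ↔ HasNebentypus 2 ψ (⇑f : ℍ → ℂ) := Iff.rfl

/-- On forms with nebentypus `ψ` the diamond operator `⟨d⟩` is the scalar `ψ(d)`. -/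
theorem diamondLin_of_mem [NeZero M] {ψ : DirichletCharacter ℂ M} {f : CuspForm (Gamma1 M) 2}
    (hf : f ∈ nebSub M ψ) (d : (ZMod M)ˣ) :
    diamondLin M 2 d f = ψ (d : ZMod M) • f := by
  apply DFunLike.coe_injective
  rw [coe_diamondLin d f (deltaRep_mem M _) (lr_deltaRep_unit d), FunLike.coe_smul,
    (hasNebentypus_iff ψ _).mp hf _ (deltaRep_mem M _), lr_deltaRep_unit]

/-- `T_p` preserves the nebentypus. -/
theorem heckeT1_mem_nebSub [NeZero M] {ψ : DirichletCharacter ℂ M} {f : CuspForm (Gamma1 M) 2}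
    (hf : f ∈ nebSub M ψ) (p : ℕ) : heckeT1 M 2 p f ∈ nebSub M ψ := by
  rw [mem_nebSub, hasNebentypus_iff]
  intro γ hγ
  obtain ⟨d, hd⟩ := isUnit_lr hγ
  rw [← coe_diamondLin d _ hγ hd.symm, ← heckeT1_diamondLin, diamondLin_of_mem hf, map_smul,
    FunLike.coe_smul, hd]

/-- `T_p` restricted to the forms with nebentypus `ψ`. -/
def heckeTψ (M : ℕ) [NeZero M] (ψ : DirichletCharacter ℂ M) (p : ℕ) :
    Module.End ℂ (nebSub M ψ) :=
  (heckeT1 M 2 p).restrict (fun _ hf => heckeT1_mem_nebSub hf p)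

@[simp] theorem coe_heckeTψ [NeZero M] (ψ : DirichletCharacter ℂ M) (p : ℕ) (f : nebSub M ψ) :
    ((heckeTψ M ψ p f : nebSub M ψ) : CuspForm (Gamma1 M) 2) = heckeT1 M 2 p (f : CuspForm _ 2) :=
  rfl

/-- The generators of the Hecke algebra of `nebSub M ψ`: the `T_p`, `p` prime, `p ∤ M`, and the
scalars `ψ(d)` (the diamond operators). -/
def heckeGens (M : ℕ) [NeZero M] (ψ : DirichletCharacter ℂ M) :
    Set (Module.End ℂ (nebSub M ψ)) :=
  {T | ∃ p : ℕ, p.Prime ∧ ¬ p ∣ M ∧ T = heckeTψ M ψ p} ∪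
    {T | ∃ d : (ZMod M)ˣ, T = ψ (d : ZMod M) • (1 : Module.End ℂ (nebSub M ψ))}

/-- The Hecke algebra of `nebSub M ψ` (a `ℤ`-subalgebra of `End_ℂ`). -/
def heckeAlg1 (M : ℕ) [NeZero M] (ψ : DirichletCharacter ℂ M) :
    Subalgebra ℤ (Module.End ℂ (nebSub M ψ)) :=
  Algebra.adjoin ℤ (heckeGens M ψ)

theorem heckeTψ_mem_heckeAlg1 [NeZero M] (ψ : DirichletCharacter ℂ M) {p : ℕ} (hp : p.Prime)
    (hpM : ¬ p ∣ M) : heckeTψ M ψ p ∈ heckeAlg1 M ψ :=
  Algebra.subset_adjoin (Or.inl ⟨p, hp, hpM, rfl⟩)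

theorem diamond_mem_heckeAlg1 [NeZero M] (ψ : DirichletCharacter ℂ M) (d : (ZMod M)ˣ) :
    ψ (d : ZMod M) • (1 : Module.End ℂ (nebSub M ψ)) ∈ heckeAlg1 M ψ :=
  Algebra.subset_adjoin (Or.inr ⟨d, rfl⟩)

/-! ## The statements -/

/-- **ES1-C-HECKE1-Q.**  The `q`-expansion of `T_p f` for `f` with nebentypus `ψ`:
`a_n(T_p f) = a_{pn}(f) + p ψ(p) a_{n/p}(f)`. -/
def QFormulaStatement : Prop :=
  ∀ (M : ℕ) [NeZero M] (ψ : DirichletCharacter ℂ M) (f : CuspForm (Gamma1 M) 2),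
    HasNebentypus 2 ψ (⇑f : ℍ → ℂ) → ∀ p : ℕ, p.Prime → ¬ p ∣ M → ∀ n : ℕ,
      ModularFormClass.qCoeff (heckeT1 M 2 p f) n
        = ModularFormClass.qCoeff f (p * n)
          + (p : ℂ) * ψ (p : ZMod M) * (if p ∣ n then ModularFormClass.qCoeff f (n / p) else 0)

/-- **ES1-C-HECKE1-COMM.**  The Hecke algebra of `nebSub M ψ` is commutative. -/
def HeckeCommStatement : Prop :=
  ∀ (M : ℕ) [NeZero M] (ψ : DirichletCharacter ℂ M) (a b : Module.End ℂ (nebSub M ψ)),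
    a ∈ heckeAlg1 M ψ → b ∈ heckeAlg1 M ψ → a * b = b * a

/-- **ES1-C-THETAIN.**  The eigen-system modulo `φ` of a form `h` with `IsModEigen ψ h φ abar dbar`
is a ring homomorphism of the Hecke algebra of `nebSub M ψ`: there is `θ : heckeAlg1 M ψ →+* k`
with `θ(T_p) = abar p` (`p` prime, `p ∤ M`) and `θ(ψ(d)) = φ(ψ(d))`.
(`θ(t) = ` the reduction of `a_1(t h)`.) -/
def ThetaInStatement : Prop :=
  ∀ (M : ℕ) [NeZero M] (ψ : DirichletCharacter ℂ M) (h : CuspForm (Gamma1 M) 2)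
    (k : Type) [Field k] (φ : Zbar →+* k) (abar dbar : ℕ → k),
    IsModEigen ψ h φ abar dbar →
    ∃ θ : heckeAlg1 M ψ →+* k,
      (∀ (p : ℕ), p.Prime → ¬ p ∣ M → ∀ t : heckeAlg1 M ψ,
        (t : Module.End ℂ (nebSub M ψ)) = heckeTψ M ψ p → θ t = abar p) ∧
      (∀ (d : (ZMod M)ˣ) (t : heckeAlg1 M ψ),
        (t : Module.End ℂ (nebSub M ψ)) = ψ (d : ZMod M) • (1 : Module.End ℂ (nebSub M ψ)) →
          Red φ (ψ (d : ZMod M)) (θ t))

end Fermat.Agent.H6.ES1C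

end
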