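/-
P-ES1 / block ES1-C, FORMS side (helper6), part 3: the sharpened THETA-IN statement.

`ThetaIn2Statement` : for `h` with `IsModEigen ψ h φ abar dbar` there is a ring homomorphism
`θ : heckeAlg1 M ψ →+* k` such that `θ t` is the reduction modulo `φ` of `a₁(t h)` for every `t`
(in particular `a₁(t h)` is an algebraic integer).  It implies `θ(T_p) = abar p`,
`θ(ψ(d)) = φ(ψ(d))` and `θ t = 0` whenever `t h = 0`.
-/
import Mathlib
import Fermat.Agent.H6.ES1C.Forms

set_option autoImplicit false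

noncomputable section

namespace Fermat.Agent.H6.ES1C

open CongruenceSubgroup
open Fermat.Agent.H20.DS

/-- **ES1-C-THETAIN** (sharp form).  `θ t = a₁(t h) mod φ`. -/
def ThetaIn2Statement : Prop :=
  ∀ (M : ℕ) [NeZero M] (ψ : DirichletCharacter ℂ M) (h : CuspForm (Gamma1 M) 2)
    (k : Type) [Field k] (φ : Zbar →+* k) (abar dbar : ℕ → k)
    (hE : IsModEigen ψ h φ abar dbar),
    ∃ θ : heckeAlg1 M ψ →+* k, ∀ t : heckeAlg1 M ψ,
      Red φ (ModularFormClass.qCoeff
        ((((t : Module.End ℂ (nebSub M ψ)) ⟨h, hE.nebentypus⟩ : nebSub M ψ) :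
          CuspForm (Gamma1 M) 2)) 1) (θ t)

end Fermat.Agent.H6.ES1C

end
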