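/-
P-ES1 / block ES1-C, FORMS side (helper6), part 4: assembly of
`Fermat.Agent.H21.Es1C.FormsSideStatement` from `QFormulaStatement`, `HeckeCommStatement` and
`ThetaIn2Statement`.
-/
import Mathlib
import Fermat.Agent.H6.ES1C.ThetaIface
import Fermat.Agent.H21.Es1C.Interfaces

set_option autoImplicit false

noncomputable section

namespace Fermat.Agent.H6.ES1C

open Matrix.SpecialLinearGroup UpperHalfPlane CongruenceSubgroup ModularForm
open scoped MatrixGroups ModularForm Manifold OnePoint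
open Fermat.Agent.H7.DS Fermat.Agent.H20.DS Fermat.Agent.H21.Es1C

variable {M : ℕ}

/-! ### `Red` is functional -/

theorem red_unique {k : Type} [Field k] {φ : Zbar →+* k} {x : ℂ} {y y' : k}
    (h : Red φ x y) (h' : Red φ x y') : y = y' := by
  obtain ⟨z, hz, hy⟩ := h
  obtain ⟨z', hz', hy'⟩ := h'
  have : z = z' := Subtype.ext (hz.trans hz'.symm)
  rw [← hy, ← hy', this]

theorem red_zero {k : Type} [Field k] (φ : Zbar →+* k) : Red φ 0 0 :=
  ⟨0, rfl, map_zero φ⟩

theorem isIntegral_char_unit (ψ : DirichletCharacter ℂ M) (d : (ZMod M)ˣ) :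
    IsIntegral ℤ (ψ (d : ZMod M)) := by
  rcases Nat.eq_zero_or_pos M with rfl | hM
  · -- `(ZMod 0)ˣ = ℤˣ`
    have h2 : (ψ (d : ZMod 0)) ^ 2 = 1 := by
      rw [← map_pow, ← Units.val_pow_eq_pow_val]
      have : d ^ 2 = 1 := by
        rcases Int.units_eq_one_or d with h | h <;> rw [h] <;> rfl
      rw [this, Units.val_one, map_one]
    exact IsIntegral.of_pow (n := 2) (by norm_num) (h2 ▸ isIntegral_one)
  · have h1 : (ψ (d : ZMod M)) ^ (Nat.totient M) = 1 := by
      rw [← map_pow, ← Units.val_pow_eq_pow_val, ZMod.pow_totient, Units.val_one, map_one]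
    exact IsIntegral.of_pow (Nat.totient_pos.mpr hM) (h1 ▸ isIntegral_one)

/-! ### helper21's representatives -/

theorem diamRep_mem' (M : ℕ) (d : ZMod M) : diamRep M d ∈ Gamma0 M := by
  unfold diamRep
  split_ifs with h
  · exact h.choose_spec.1
  · exact one_mem _

theorem lr_diamRep_unit [NeZero M] (d : (ZMod M)ˣ) : lr M (diamRep M (d : ZMod M)) = d := by
  have h : ∃ g : SL(2, ℤ), g ∈ Gamma0 M ∧ lr M g = (d : ZMod M) :=
    ⟨deltaRep M (d : ZMod M).val, deltaRep_mem M _, lr_deltaRep_unit d⟩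
  unfold diamRep
  rw [dif_pos h]
  exact h.choose_spec.2

theorem lr_diamRep_prime {p : ℕ} (hp : p.Prime) (hpM : ¬ p ∣ M) :
    lr M (diamRep M (p : ZMod M)) = (p : ZMod M) := by
  have h : ∃ g : SL(2, ℤ), g ∈ Gamma0 M ∧ lr M g = (p : ZMod M) :=
    ⟨deltaRep M p, deltaRep_mem M _, lr_deltaRep_prime hp hpM⟩
  unfold diamRep
  rw [dif_pos h]
  exact h.choose_spec.2

/-- `T_p f` is the sum of the slashes by helper21's family `famT1 M p`. -/
theorem coe_heckeT1_famT1 [NeZero M] {p : ℕ} [NeZero p] (hp : p.Prime) (hpM : ¬ p ∣ M)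
    (f : CuspForm (Gamma1 M) 2) :
    (⇑(heckeT1 M 2 p f) : ℍ → ℂ)
      = ∑ x : OnePoint (ZMod p), (⇑f : ℍ → ℂ) ∣[(2 : ℤ)] famT1 M p x := by
  rw [coe_heckeT1_of_lr hp hpM f (diamRep_mem' M _) (lr_diamRep_prime hp hpM),
    dsT_eq_sum_onePoint]
  rfl

/-! ### the assembly -/

/-- The subring generated by the generators of the Hecke algebra is everything. -/
theorem closure_gens_eq_top [NeZero M] (ψ : DirichletCharacter ℂ M)
    (S : Subring (heckeAlg1 M ψ))
    (hS : ∀ (x : Module.End ℂ (nebSub M ψ)) (hx : x ∈ heckeGens M ψ),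
      (⟨x, Algebra.subset_adjoin hx⟩ : heckeAlg1 M ψ) ∈ S) :
    S = ⊤ := by
  rw [eq_top_iff]
  rintro ⟨t, ht⟩ -
  induction ht using Algebra.adjoin_induction with
  | mem x hx => exact hS x hx
  | algebraMap r =>
    have : (⟨algebraMap ℤ (Module.End ℂ (nebSub M ψ)) r, Subalgebra.algebraMap_mem _ r⟩ :
        heckeAlg1 M ψ) = ((r : ℤ) : heckeAlg1 M ψ) := by
      apply Subtype.ext
      simp
    rw [this]
    exact intCast_mem S r
  | add x y hx hy hx' hy' =>
    have := S.add_mem hx' hy'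
    exact this
  | mul x y hx hy hx' hy' =>
    have := S.mul_mem hx' hy'
    exact this

theorem formsSide (hQ : QFormulaStatement) (hC : HeckeCommStatement) (hT : ThetaIn2Statement) :
    FormsSideStatement := by
  intro M _ _ ψ h ℓ _ k _ _ φ abar dbar hE
  obtain ⟨θ, hθ⟩ := hT M ψ h k φ abar dbar hE
  letI instC : CommRing (heckeAlg1 M ψ) :=
    { (inferInstance : Ring (heckeAlg1 M ψ)) with
      mul_comm := fun a b => Subtype.ext (hC M ψ a b a.2 b.2) }
  let tp : PrimesAway M → heckeAlg1 M ψ :=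
    fun p => ⟨heckeTψ M ψ p, heckeTψ_mem_heckeAlg1 ψ p.2.1 p.2.2⟩
  let td : (ZMod M)ˣ → heckeAlg1 M ψ :=
    fun d => ⟨ψ (d : ZMod M) • (1 : Module.End ℂ (nebSub M ψ)), diamond_mem_heckeAlg1 ψ d⟩
  refine ⟨nebSub M ψ, hE.nebentypus, heckeAlg1 M ψ, instC, (heckeAlg1 M ψ).val.toRingHom,
    tp, td, θ, ?_, ?_, ?_, ?_, ?_, ?_⟩
  · -- generation
    refine closure_gens_eq_top ψ _ ?_
    rintro x (⟨p, hp, hpM, rfl⟩ | ⟨d, rfl⟩)
    · exact Subring.subset_closure (Or.inl ⟨⟨p, hp, hpM⟩, rfl⟩)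
    · exact Subring.subset_closure (Or.inr ⟨d, rfl⟩)
  · -- `T_p`
    intro p f z
    have := coe_heckeT1_famT1 p.2.1 p.2.2 (f : CuspForm (Gamma1 M) 2)
    have h2 := congrFun this z
    rw [Finset.sum_apply] at h2
    exact h2
  · -- diamonds
    intro d f z
    have hf : HasNebentypus 2 ψ (⇑(f : CuspForm (Gamma1 M) 2) : ℍ → ℂ) := f.2
    have h1 := (hasNebentypus_iff ψ _).mp hf _ (diamRep_mem' M (d : ZMod M))
    rw [lr_diamRep_unit] at h1
    rw [h1]
    rfl
  · -- `θ (T_p) = abar p`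
    intro p
    have h1 := hθ (tp p)
    have h2 : ModularFormClass.qCoeff
        ((((tp p : Module.End ℂ (nebSub M ψ)) ⟨h, hE.nebentypus⟩ : nebSub M ψ) :
          CuspForm (Gamma1 M) 2)) 1 = ModularFormClass.qCoeff h p := by
      show ModularFormClass.qCoeff (heckeT1 M 2 p h) 1 = _
      rw [hQ M ψ h hE.nebentypus p p.2.1 p.2.2 1, mul_one,
        if_neg (fun hd => p.2.1.one_lt.ne' (Nat.dvd_one.mp hd)), mul_zero, add_zero]
    rw [h2] at h1
    exact red_unique h1 (hE.red_coeff p)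
  · -- `θ (ψ d)`
    intro d
    have h1 := hθ (td d)
    obtain ⟨z₁, hz₁, hφ₁⟩ := hE.red_coeff 1
    rw [hE.one] at hφ₁
    let zd : Zbar := ⟨ψ (d : ZMod M), isIntegral_char_unit ψ d⟩
    have h2 : ModularFormClass.qCoeff
        ((((td d : Module.End ℂ (nebSub M ψ)) ⟨h, hE.nebentypus⟩ : nebSub M ψ) :
          CuspForm (Gamma1 M) 2)) 1 = ψ (d : ZMod M) * ModularFormClass.qCoeff h 1 := by
      show ModularFormClass.qCoeff (⇑(ψ (d : ZMod M) • h) : ℍ → ℂ) 1 = _
      rw [FunLike.coe_smul, NiceFn.qCoeff_smul (niceFn_cuspForm h)]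
    rw [h2] at h1
    have h3 : Red φ (ψ (d : ZMod M) * ModularFormClass.qCoeff h 1) (φ zd) :=
      ⟨zd * z₁, by rw [← hz₁]; rfl, by rw [map_mul, hφ₁, mul_one]⟩
    rw [red_unique h1 h3]
    exact ⟨zd, rfl, rfl⟩
  · -- annihilator
    intro t ht
    have h1 := hθ t
    have h2 : ((t : Module.End ℂ (nebSub M ψ)) ⟨h, hE.nebentypus⟩ : nebSub M ψ) = 0 := ht
    rw [h2] at h1
    have h3 : ModularFormClass.qCoeff
        (((0 : nebSub M ψ) : CuspForm (Gamma1 M) 2)) 1 = 0 := by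
      show ModularFormClass.qCoeff (⇑(0 : CuspForm (Gamma1 M) 2) : ℍ → ℂ) 1 = 0
      have := NiceFn.qCoeff_smul (niceFn_cuspForm (0 : CuspForm (Gamma1 M) 2)) 0 1
      rw [zero_mul] at this
      rw [← this]
      congr 1
      rw [zero_smul]
      rfl
    rw [h3] at h1
    exact red_unique h1 (red_zero φ)

end Fermat.Agent.H6.ES1C

end
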