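/-
P-ES1 / block ES1-C, row 742 (ES1-C-THETAIN), helper6:
`thetaIn2 : ThetaIn2Statement` — the eigen-system modulo `φ` of a form `h` with
`IsModEigen ψ h φ abar dbar` is a ring homomorphism `θ` of the Hecke algebra of the `ψ`-part,
`θ t = a₁(t h) mod φ`.

Proof ("graph trick"): `E g c :⇔ ∀ n, a_n(g) reduces to c · abar n`;
`InR t c :⇔ ∀ g c', E g c' → E (t g) (c c')` is (the graph of) a ring homomorphism.
-/
import Mathlib
import Fermat.Agent.H6.ES1C.ThetaIface
import Fermat.Agent.H32.Hecke1.QStatement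

set_option autoImplicit false

noncomputable section

namespace Fermat.Agent.H6.ES1C

open Matrix.SpecialLinearGroup UpperHalfPlane CongruenceSubgroup ModularForm
open scoped MatrixGroups ModularForm Manifold OnePoint
open Fermat.Agent.H7.DS Fermat.Agent.H20.DS

/-! ### calculus of `Red` -/

section red

variable {k : Type} [Field k] {φ : Zbar →+* k}

theorem red_uniq {x : ℂ} {y y' : k} (h : Red φ x y) (h' : Red φ x y') : y = y' := by
  obtain ⟨z, hz, hy⟩ := h
  obtain ⟨z', hz', hy'⟩ := h'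
  have : z = z' := Subtype.ext (hz.trans hz'.symm)
  rw [← hy, ← hy', this]

theorem red_add {x x' : ℂ} {y y' : k} (h : Red φ x y) (h' : Red φ x' y') :
    Red φ (x + x') (y + y') := by
  obtain ⟨z, hz, hy⟩ := h
  obtain ⟨z', hz', hy'⟩ := h'
  exact ⟨z + z', by rw [← hz, ← hz']; rfl, by rw [map_add, hy, hy']⟩

theorem red_mul {x x' : ℂ} {y y' : k} (h : Red φ x y) (h' : Red φ x' y') :
    Red φ (x * x') (y * y') := by
  obtain ⟨z, hz, hy⟩ := h
  obtain ⟨z', hz', hy'⟩ := h'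
  exact ⟨z * z', by rw [← hz, ← hz']; rfl, by rw [map_mul, hy, hy']⟩

theorem red_zero' (φ : Zbar →+* k) : Red φ 0 0 := ⟨0, rfl, map_zero φ⟩

theorem red_intCast (φ : Zbar →+* k) (r : ℤ) : Red φ (r : ℂ) (r : k) :=
  ⟨(r : Zbar), by simp, map_intCast φ r⟩

theorem red_congr {x x' : ℂ} {y y' : k} (h : Red φ x y) (hx : x = x') (hy : y = y') :
    Red φ x' y' := by
  rw [← hx, ← hy]
  exact h

end red

theorem isIntegral_char_unit' {M : ℕ} (ψ : DirichletCharacter ℂ M) (d : (ZMod M)ˣ) :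
    IsIntegral ℤ (ψ (d : ZMod M)) := by
  rcases Nat.eq_zero_or_pos M with rfl | hM
  · have h2 : (ψ (d : ZMod 0)) ^ 2 = 1 := by
      rw [← map_pow, ← Units.val_pow_eq_pow_val]
      have : d ^ 2 = 1 := by
        rcases Int.units_eq_one_or d with h | h <;> rw [h] <;> rfl
      rw [this, Units.val_one, map_one]
    exact IsIntegral.of_pow (n := 2) (by norm_num) (h2 ▸ isIntegral_one)
  · have h1 : (ψ (d : ZMod M)) ^ (Nat.totient M) = 1 := by
      rw [← map_pow, ← Units.val_pow_eq_pow_val, ZMod.pow_totient, Units.val_one, map_one]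
    exact IsIntegral.of_pow (Nat.totient_pos.mpr hM) (h1 ▸ isIntegral_one)

/-! ### the relation `E` -/

section theta

variable {M : ℕ} [NeZero M] {ψ : DirichletCharacter ℂ M} {k : Type} [Field k]
  {φ : Zbar →+* k} {abar dbar : ℕ → k}

/-- `a_n(g)` reduces to `c · abar n` for all `n`. -/
def EigRel (φ : Zbar →+* k) (abar : ℕ → k) (g : CuspForm (Gamma1 M) 2) (c : k) : Prop :=
  ∀ n : ℕ, Red φ (ModularFormClass.qCoeff (⇑g : ℍ → ℂ) n) (c * abar n)

omit [NeZero M] in
theorem eigRel_self {h : CuspForm (Gamma1 M) 2} (hE : IsModEigen ψ h φ abar dbar) :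
    EigRel φ abar h 1 := fun n => by
  rw [one_mul]
  exact hE.red_coeff n

theorem EigRel.add {g g' : CuspForm (Gamma1 M) 2} {c c' : k} (h : EigRel φ abar g c)
    (h' : EigRel φ abar g' c') : EigRel φ abar (g + g') (c + c') := fun n => by
  rw [Fermat.Agent.H32.Hecke1Q.qCoeff_add_cuspForm, add_mul]
  exact red_add (h n) (h' n)

theorem EigRel.smul {g : CuspForm (Gamma1 M) 2} {c : k} (h : EigRel φ abar g c) {a : ℂ}
    {b : k} (hab : Red φ a b) : EigRel φ abar (a • g) (b * c) := fun n => by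
  rw [Fermat.Agent.H32.Hecke1Q.qCoeff_smul_cuspForm, mul_assoc]
  exact red_mul hab (h n)

theorem eigRel_zero (c : k) : EigRel φ abar (0 : CuspForm (Gamma1 M) 2) (0 * c) := fun n => by
  have h0 : (0 : CuspForm (Gamma1 M) 2) = (0 : ℂ) • (0 : CuspForm (Gamma1 M) 2) := by
    rw [zero_smul]
  rw [h0, Fermat.Agent.H32.Hecke1Q.qCoeff_smul_cuspForm, zero_mul, zero_mul, zero_mul]
  exact red_zero' φ

theorem EigRel.hecke (hQ : QFormulaStatement) {h : CuspForm (Gamma1 M) 2}
    (hE : IsModEigen ψ h φ abar dbar) {g : CuspForm (Gamma1 M) 2} (hg : g ∈ nebSub M ψ)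
    {c : k} (hgc : EigRel φ abar g c) {p : ℕ} (hp : p.Prime) (hpM : ¬ p ∣ M) :
    EigRel φ abar (heckeT1 M 2 p g) (abar p * c) := fun n => by
  rw [hQ M ψ g hg p hp hpM n]
  have h1 : Red φ (if p ∣ n then ModularFormClass.qCoeff (⇑g : ℍ → ℂ) (n / p) else 0)
      (c * (if p ∣ n then abar (n / p) else 0)) := by
    split_ifs
    · exact hgc (n / p)
    · rw [mul_zero]
      exact red_zero' φ
  have h2 := red_add (hgc (p * n)) (red_mul (hE.red_det p hp hpM) h1)
  refine red_congr h2 rfl ?_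
  have h3 := hE.hecke p hp hpM n
  linear_combination c * h3

/-- `InR t c` : the operator `t` multiplies the eigen-relation by `c`. -/
def InR (ψ : DirichletCharacter ℂ M) (φ : Zbar →+* k) (abar : ℕ → k)
    (t : Module.End ℂ (nebSub M ψ)) (c : k) : Prop :=
  ∀ (g : nebSub M ψ) (c' : k), EigRel φ abar (g : CuspForm (Gamma1 M) 2) c' →
    EigRel φ abar ((t g : nebSub M ψ) : CuspForm (Gamma1 M) 2) (c * c')

theorem inR_one : InR ψ φ abar 1 1 := fun g c' h => by
  rw [one_mul]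
  exact h

theorem inR_zero : InR ψ φ abar 0 0 := fun _ c' _ => eigRel_zero c'

theorem InR.mul {t t' : Module.End ℂ (nebSub M ψ)} {c c' : k} (h : InR ψ φ abar t c)
    (h' : InR ψ φ abar t' c') : InR ψ φ abar (t * t') (c * c') := fun g c'' hg => by
  rw [mul_assoc]
  exact h (t' g) (c' * c'') (h' g c'' hg)

theorem InR.add {t t' : Module.End ℂ (nebSub M ψ)} {c c' : k} (h : InR ψ φ abar t c)
    (h' : InR ψ φ abar t' c') : InR ψ φ abar (t + t') (c + c') := fun g c'' hg => by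
  rw [add_mul]
  exact (h g c'' hg).add (h' g c'' hg)

theorem inR_scalar {a : ℂ} {b : k} (hab : Red φ a b) :
    InR ψ φ abar (a • (1 : Module.End ℂ (nebSub M ψ))) b := fun _ _ hg => hg.smul hab

theorem inR_algebraMap (r : ℤ) :
    InR ψ φ abar (algebraMap ℤ (Module.End ℂ (nebSub M ψ)) r) (r : k) := by
  have h : algebraMap ℤ (Module.End ℂ (nebSub M ψ)) r
      = (r : ℂ) • (1 : Module.End ℂ (nebSub M ψ)) := by
    rw [eq_intCast, ← map_intCast (algebraMap ℂ (Module.End ℂ (nebSub M ψ))) r,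
      Algebra.algebraMap_eq_smul_one]
  rw [h]
  exact inR_scalar (red_intCast φ r)

theorem inR_hecke (hQ : QFormulaStatement) {h : CuspForm (Gamma1 M) 2}
    (hE : IsModEigen ψ h φ abar dbar) {p : ℕ} (hp : p.Prime) (hpM : ¬ p ∣ M) :
    InR ψ φ abar (heckeTψ M ψ p) (abar p) := fun g _ hg =>
  EigRel.hecke hQ hE g.2 hg hp hpM

theorem inR_exists (hQ : QFormulaStatement) {h : CuspForm (Gamma1 M) 2}
    (hE : IsModEigen ψ h φ abar dbar) (t : Module.End ℂ (nebSub M ψ))
    (ht : t ∈ heckeAlg1 M ψ) : ∃ c : k, InR ψ φ abar t c := by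
  induction ht using Algebra.adjoin_induction with
  | mem x hx =>
    rcases hx with ⟨p, hp, hpM, rfl⟩ | ⟨d, rfl⟩
    · exact ⟨abar p, inR_hecke hQ hE hp hpM⟩
    · exact ⟨φ ⟨ψ (d : ZMod M), isIntegral_char_unit' ψ d⟩, inR_scalar ⟨_, rfl, rfl⟩⟩
  | algebraMap r => exact ⟨(r : k), inR_algebraMap r⟩
  | add x y _ _ hx hy =>
    obtain ⟨c, hc⟩ := hx
    obtain ⟨c', hc'⟩ := hy
    exact ⟨c + c', hc.add hc'⟩
  | mul x y _ _ hx hy =>
    obtain ⟨c, hc⟩ := hx
    obtain ⟨c', hc'⟩ := hy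
    exact ⟨c * c', hc.mul hc'⟩

/-- The value of `InR t c` at `h`: `a₁(t h)` reduces to `c`. -/
theorem InR.red_one {h : CuspForm (Gamma1 M) 2} (hE : IsModEigen ψ h φ abar dbar)
    {t : Module.End ℂ (nebSub M ψ)} {c : k} (ht : InR ψ φ abar t c) :
    Red φ (ModularFormClass.qCoeff
      (⇑((t ⟨h, hE.nebentypus⟩ : nebSub M ψ) : CuspForm (Gamma1 M) 2) : ℍ → ℂ) 1) c := by
  have h1 := ht ⟨h, hE.nebentypus⟩ 1 (eigRel_self hE) 1
  rwa [mul_one, hE.one, mul_one] at h1

theorem InR.unique {h : CuspForm (Gamma1 M) 2} (hE : IsModEigen ψ h φ abar dbar)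
    {t : Module.End ℂ (nebSub M ψ)} {c c' : k} (ht : InR ψ φ abar t c)
    (ht' : InR ψ φ abar t c') : c = c' :=
  red_uniq (ht.red_one hE) (ht'.red_one hE)

end theta

/-- **ES1-C-THETAIN** (row 742), from the `q`-formula. -/
theorem thetaIn2_of (hQ : QFormulaStatement) : ThetaIn2Statement := by
  intro M _ ψ h k _ φ abar dbar hE
  have hex : ∀ t : heckeAlg1 M ψ, ∃ c : k, InR ψ φ abar (t : Module.End ℂ (nebSub M ψ)) c :=
    fun t => inR_exists hQ hE t.1 t.2
  choose θ hθ using hex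
  refine ⟨{ toFun := θ
            map_one' := InR.unique hE (hθ 1) inR_one
            map_mul' := fun a b => InR.unique hE (hθ (a * b)) ((hθ a).mul (hθ b))
            map_zero' := InR.unique hE (hθ 0) inR_zero
            map_add' := fun a b => InR.unique hE (hθ (a + b)) ((hθ a).add (hθ b)) }, ?_⟩
  intro t
  exact (hθ t).red_one hE

/-- **ES1-C-THETAIN** (row 742), unconditional. -/
theorem thetaIn2 : ThetaIn2Statement :=
  thetaIn2_of Fermat.Agent.H32.Hecke1Q.qFormula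

end Fermat.Agent.H6.ES1C

end
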