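/-
P-ES1 / block ES1-C, FORMS side (helper6): the forms side is UNCONDITIONAL.

`formsSideStatement : Fermat.Agent.H21.Es1C.FormsSideStatement`.
-/
import Mathlib
import Fermat.Agent.H6.ES1C.FormsSide
import Fermat.Agent.H6.ES1C.ThetaIn
import Fermat.Agent.H32.Hecke1.QStatement

set_option autoImplicit false

namespace Fermat.Agent.H6.ES1C

/-- **ES1-C-FORMS** (rows 733/743), unconditional. -/
theorem formsSideStatement : Fermat.Agent.H21.Es1C.FormsSideStatement :=
  formsSide Fermat.Agent.H32.Hecke1Q.qFormula Fermat.Agent.H32.Hecke1Q.heckeComm thetaIn2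

end Fermat.Agent.H6.ES1C
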