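/-
P-ES1 / block ES1-C, row 738 (ES1-C-KD), helper6:
`KummerDiamond1Statement` from `DiamondRep1Statement`.

The Kummer character of `(aut d⁻¹) • x` is `χ ∘ conj(diamRep M d)`.
-/
import Mathlib
import Fermat.Agent.H21.Es1C.Interfaces

set_option autoImplicit false

noncomputable section

namespace Fermat.Agent.H6.ES1C

open Matrix.SpecialLinearGroup UpperHalfPlane CongruenceSubgroup ModularForm
open AlgebraicCurve ModularCurve
open scoped MatrixGroups ModularForm Manifold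
open Fermat.Agent.H7.DS Fermat.Agent.H21.Es1C Fermat.Agent.H29.ES1 Fermat.Agent.H23.ES1A

/-- `diamRep M d ∈ Γ₀(M)`. -/
theorem kd_diamRep_mem (M : ℕ) (d : ZMod M) : diamRep M d ∈ Gamma0 M := by
  unfold diamRep
  split_ifs with h
  · exact h.choose_spec.1
  · exact one_mem _

/-- `⟨Γ₁(M), -1⟩` is normalised by `Γ₀(M)`. -/
theorem conj_mem_gamma1pm {M : ℕ} {g : SL(2, ℤ)} (hg : g ∈ Gamma0 M) :
    ∀ γ ∈ gamma1pm M, g * γ * g⁻¹ ∈ gamma1pm M := by
  have h : gamma1pm M ≤ (gamma1pm M).comap (MulAut.conj g).toMonoidHom := by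
    refine sup_le ?_ ?_
    · intro γ hγ
      rw [Subgroup.mem_comap]
      show g * γ * g⁻¹ ∈ gamma1pm M
      exact (le_sup_left : Gamma1 M ≤ gamma1pm M) (conj_mem_Gamma1 hg hγ)
    · rw [Subgroup.zpowers_le, Subgroup.mem_comap]
      show g * (-1) * g⁻¹ ∈ gamma1pm M
      have : g * (-1) * g⁻¹ = -1 := by
        rw [mul_neg, mul_one, neg_mul, mul_inv_cancel]
      rw [this]
      exact (le_sup_right : Subgroup.zpowers (-1 : SL(2, ℤ)) ≤ gamma1pm M)
        (Subgroup.mem_zpowers _)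
  intro γ hγ
  exact h hγ

theorem coe_conjG1 {M : ℕ} {g : SL(2, ℤ)} (hg : g ∈ Gamma0 M) (γ : ↥(G1 M)) :
    ((conjG1 M g γ : ↥(G1 M)) : SL(2, ℤ)) = g * γ * g⁻¹ := by
  unfold conjG1
  rw [dif_pos (conj_mem_gamma1pm hg)]
  rfl

theorem kd_mdiff_comp_smul {G : ℍ → ℂ} (hG : MDiff G) (δ : SL(2, ℤ)) :
    MDiff (fun z : ℍ => G (δ • z)) := by
  have h1 : MDiff (fun τ : ℍ => ((δ : GL (Fin 2) ℝ)) • τ) :=
    mdifferentiable_smul (by simp)
  exact hG.comp h1

theorem kd_ord_aux {K F : Type*} [Field K] [Field F] [Algebra K F] (s : SemilinearAut K F)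
    (D : Divisor.degZero (K := K) (F := F)) (f : F) (m : ℕ)
    (hord : ∀ v : Place K F, v.ord f = (m : ℤ) * (D : Divisor K F) v) (v : Place K F) :
    v.ord (s • f) = (m : ℤ) * ((SemilinearAut.degZeroSMulHom s D : Divisor.degZero (K := K) (F := F)) :
      Divisor K F) v := by
  rw [SemilinearAut.coe_degZeroSMulHom, SemilinearAut.divisor_smul_apply, ← hord]
  have h := SemilinearAut.ord_smul s (s⁻¹ • v) f
  rw [smul_inv_smul] at h
  exact h

theorem kd_char_aux {M : ℕ} {g : SL(2, ℤ)} (hg : g ∈ Gamma0 M) {G : ℍ → ℂ}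
    {χ : ↥(G1 M) →* ℂˣ}
    (hchar : ∀ (γ : ↥(G1 M)) (z : ℍ), G ((γ : SL(2, ℤ)) • z) = (χ γ : ℂ) * G z)
    (γ : ↥(G1 M)) (z : ℍ) :
    G (g • ((γ : SL(2, ℤ)) • z)) = ((χ (conjG1 M g γ) : ℂˣ) : ℂ) * G (g • z) := by
  have h1 := hchar (conjG1 M g γ) (g • z)
  rw [coe_conjG1 hg] at h1
  have h2 : (g * (γ : SL(2, ℤ)) * g⁻¹) • (g • z) = g • ((γ : SL(2, ℤ)) • z) := by
    rw [← mul_smul, ← mul_smul, inv_mul_cancel_right]
  rw [h2] at h1
  exact h1

/-- **ES1-C-KD.** -/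
theorem kummerDiamond1 (hD : DiamondRep1Statement) : KummerDiamond1Statement := by
  intro M _ hM d m _ x χ hx
  obtain ⟨D, f, G, hDx, hf, hord, hG, hrep, hchar⟩ := hx
  have hg : diamRep M (d : ZMod M) ∈ Gamma0 M := kd_diamRep_mem M _
  refine ⟨SemilinearAut.degZeroSMulHom (K := ℂ) (F := ↥(F1C M))
      (SemilinearAut.ofAlgAut (diamondAut ℂ M d⁻¹)) D,
    diamondAut ℂ M d⁻¹ f, fun z => G (diamRep M (d : ZMod M) • z), ?_, ?_, ?_, ?_, ?_, ?_⟩
  · rw [← hDx]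
    rfl
  · exact (map_ne_zero_iff _ (diamondAut ℂ M d⁻¹).injective).mpr hf
  · intro v
    exact kd_ord_aux (K := ℂ) (F := ↥(F1C M)) (SemilinearAut.ofAlgAut (diamondAut ℂ M d⁻¹))
      D f m hord v
  · exact kd_mdiff_comp_smul hG _
  · have h := hD M hM d f (G ^ m) (hG.pow m) hrep
    have e : (fun z : ℍ => G (diamRep M (d : ZMod M) • z)) ^ m
        = fun z : ℍ => (G ^ m) (diamRep M (d : ZMod M) • z) := by
      funext z
      simp [Pi.pow_apply]
    rw [e]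
    exact h
  · intro γ z
    exact kd_char_aux hg hchar γ z

end Fermat.Agent.H6.ES1C

end
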